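import Mathlib.RingTheory.MvPowerSeries.Inverse
import Mathlib.RingTheory.MvPowerSeries.Equiv
import Mathlib.RingTheory.Regular.RegularSequence
import Mathlib.RingTheory.DiscreteValuationRing.Basic

/-!
# The regular system of parameters of `𝒪⟦X₁,…,X_r⟧`
-/

set_option autoImplicit false

open MvPowerSeries RingTheory.Sequence IsLocalRing
open scoped Pointwise

namespace Fermat.Agent.Patching

variable {σ : Type*} {A : Type*} [CommRing A]

/-- The ideal generated by a finite set of variables consists of the series without monomials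
avoiding all of them. -/
lemma mem_span_X_image_iff (s : Finset σ) (f : MvPowerSeries σ A) :
    f ∈ Ideal.span ((X : σ → MvPowerSeries σ A) '' ↑s) ↔
      ∀ m : σ →₀ ℕ, (∀ j ∈ s, m j = 0) → coeff m f = 0 := by
  classical
  induction s using Finset.induction generalizing f with
  | empty =>
    simp only [Finset.coe_empty, Set.image_empty, Ideal.span_empty, Ideal.mem_bot,
      Finset.notMem_empty, false_implies, implies_true, true_implies]
    exact ⟨fun h m => by simp [h], fun h => MvPowerSeries.ext fun m => by simp [h m]⟩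
  | @insert a s ha ih =>
    rw [Finset.coe_insert, Set.image_insert_eq, Ideal.mem_span_insert]
    constructor
    · rintro ⟨c, z, hz, rfl⟩ m hm
      rw [map_add, (ih z).1 hz m fun j hj => hm j (Finset.mem_insert_of_mem hj), add_zero]
      exact X_dvd_iff.1 (dvd_mul_left _ c) m (hm a (Finset.mem_insert_self a s))
    · intro hf
      let g : MvPowerSeries σ A := fun m => if m a = 0 then 0 else coeff m f
      have hg : ∀ m, coeff m g = if m a = 0 then 0 else coeff m f := fun m => rfl
      obtain ⟨c, hc⟩ : X a ∣ g := X_dvd_iff.2 fun m hm => by simp [hg, hm]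
      refine ⟨c, f - g, (ih _).2 fun m hm => ?_, by rw [mul_comm c, ← hc]; abel⟩
      rw [map_sub, hg]
      split_ifs with h
      · rw [sub_zero]
        exact hf m fun j hj => by
          rcases Finset.mem_insert.1 hj with rfl | hj
          exacts [h, hm j hj]
      · simp

/-- `f - f(0)` lies in the ideal of the variables. -/
lemma sub_C_mem_span_range_X [Fintype σ] (f : MvPowerSeries σ A) :
    f - C (constantCoeff f) ∈ Ideal.span (Set.range (X : σ → MvPowerSeries σ A)) := by
  classical
  rw [← Set.image_univ, ← Finset.coe_univ, mem_span_X_image_iff]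
  intro m hm
  have : m = 0 := Finsupp.ext fun j => hm j (Finset.mem_univ j)
  subst this
  simp [coeff_zero_eq_constantCoeff]

/-- The ideal of all variables is the kernel of the constant coefficient. -/
lemma mem_span_range_X_iff [Fintype σ] (f : MvPowerSeries σ A) :
    f ∈ Ideal.span (Set.range (X : σ → MvPowerSeries σ A)) ↔ constantCoeff f = 0 := by
  classical
  rw [← Set.image_univ, ← Finset.coe_univ, mem_span_X_image_iff]
  constructor
  · intro h
    simpa [coeff_zero_eq_constantCoeff] using h 0 (by simp)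
  · intro h m hm
    have : m = 0 := Finsupp.ext fun j => hm j (Finset.mem_univ j)
    subst this
    simpa [coeff_zero_eq_constantCoeff] using h

/-- The sequence `X₁, …, X_r, ϖ`. -/
noncomputable def paramSeq (r : ℕ) (ϖ : A) : List (MvPowerSeries (Fin r) A) :=
  List.ofFn (X : Fin r → MvPowerSeries (Fin r) A) ++ [C ϖ]

lemma ofList_ofFn_X (r : ℕ) :
    Ideal.ofList (List.ofFn (X : Fin r → MvPowerSeries (Fin r) A)) =
      Ideal.span (Set.range (X : Fin r → MvPowerSeries (Fin r) A)) := by
  simp [Ideal.ofList, Set.range, List.mem_ofFn]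

/-- The variables, followed by a nonzero divisor of the coefficient ring, form a weakly
regular sequence. -/
lemma isWeaklyRegular_paramSeq (r : ℕ) {ϖ : A} (hϖ : IsSMulRegular A ϖ) :
    IsWeaklyRegular (MvPowerSeries (Fin r) A) (paramSeq r ϖ) := by
  rw [paramSeq, isWeaklyRegular_append_iff]
  refine ⟨(isWeaklyRegular_iff _ _).2 fun i hi => ?_, ?_⟩
  · rw [List.length_ofFn] at hi
    rw [List.getElem_ofFn]
    have hspan : Ideal.ofList ((List.ofFn (X : Fin r → MvPowerSeries (Fin r) A)).take i) =
        Ideal.span ((X : Fin r → MvPowerSeries (Fin r) A) '' ↑(Finset.Iio (⟨i, hi⟩ : Fin r))) := by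
      refine congrArg Ideal.span (Set.ext fun x => ?_)
      simp only [Set.mem_ofPred_eq, Set.mem_image, Finset.coe_Iio, Set.mem_Iio,
        List.mem_take_iff_getElem, List.getElem_ofFn, List.length_ofFn]
      constructor
      · rintro ⟨j, hj, rfl⟩
        exact ⟨⟨j, by omega⟩, by simp [Fin.lt_def]; omega, rfl⟩
      · rintro ⟨j, hj, rfl⟩
        exact ⟨j, by simp [Fin.lt_def] at hj; omega, rfl⟩
    rw [isSMulRegular_quotient_iff_mem_of_smul_mem]
    intro f hf
    rw [smul_eq_mul, Ideal.mul_top, hspan, mem_span_X_image_iff] at hf ⊢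
    intro m hm
    have := hf (Finsupp.single ⟨i, hi⟩ 1 + m) fun j hj => by
      have hne : j ≠ ⟨i, hi⟩ := ne_of_lt (Finset.mem_Iio.1 hj)
      simp [Finsupp.single_eq_of_ne, hne, hm j hj]
    rwa [smul_eq_mul, X_def, coeff_add_monomial_mul, one_mul] at this
  · rw [isWeaklyRegular_singleton_iff, isSMulRegular_quotient_iff_mem_of_smul_mem]
    intro f hf
    rw [smul_eq_mul, Ideal.mul_top, ofList_ofFn_X, mem_span_range_X_iff] at hf ⊢
    rw [smul_eq_mul, map_mul, constantCoeff_C] at hf
    exact hϖ.right_eq_zero_of_smul hf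

variable {𝒪 : Type*} [CommRing 𝒪] [IsDomain 𝒪] [IsDiscreteValuationRing 𝒪]

/-- The parameters `X₁, …, X_r, ϖ` generate the maximal ideal. -/
lemma ofList_paramSeq (r : ℕ) {ϖ : 𝒪} (hϖ : Irreducible ϖ) :
    Ideal.ofList (paramSeq r ϖ) = maximalIdeal (MvPowerSeries (Fin r) 𝒪) := by
  rw [paramSeq, Ideal.ofList_append, ofList_ofFn_X, Ideal.ofList_singleton]
  refine le_antisymm (sup_le ?_ ?_) fun f hf => ?_
  · rw [Ideal.span_le]
    rintro _ ⟨j, rfl⟩
    rw [SetLike.mem_coe, mem_maximalIdeal, mem_nonunits_iff, isUnit_iff_constantCoeff,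
      constantCoeff_X]
    exact not_isUnit_zero
  · rw [Ideal.span_le, Set.singleton_subset_iff, SetLike.mem_coe, mem_maximalIdeal,
      mem_nonunits_iff, isUnit_iff_constantCoeff, constantCoeff_C]
    exact hϖ.not_isUnit
  · rw [mem_maximalIdeal, mem_nonunits_iff, isUnit_iff_constantCoeff, ← mem_nonunits_iff,
      ← mem_maximalIdeal, hϖ.maximalIdeal_eq, Ideal.mem_span_singleton] at hf
    obtain ⟨a, ha⟩ := hf
    rw [← sub_add_cancel f (C (constantCoeff f))]
    refine Submodule.add_mem_sup (sub_C_mem_span_range_X f) ?_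
    rw [ha, map_mul, Ideal.mem_span_singleton]
    exact dvd_mul_right _ _

end Fermat.Agent.Patching
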